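import Mathlib

/-!
# S15 / DESC — ENGINE (blueprint v3, sec. 1), abstract form      (helper842)

Pure group theory, Mathlib only.  `Γ` acts on the additive commutative group `J` by additive
automorphisms.  For a subgroup `F ≤ J` put

  `cocSub Γ F := {y : ∀ s, s • y - y ∈ F}`          ("the Kummer cocycle of `y` takes values in `F`").

So `cocSub Γ ⊥ = J^Γ` (= `A` of the blueprint), and for a `Γ`-stable finite `W_E ≤ J[r]`,
`cocSub Γ W_E = Y_E`, `cocSub Γ (F i) = Y_i` (the condition `r y ∈ A` is automatic).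

For a flag `F 0 ≤ F 1 ≤ … ≤ F D = W` of `Γ`-stable subgroups the ENGINE is the EXACT formula

  `(∏_{i<D} sel i) * [W ⊓ cocSub (F 0) : F 0] = [cocSub W : cocSub (F 0) ⊔ W] * ∏_{i<D} pG i`,

* `sel i = [cocSub (F (i+1)) : cocSub (F i) ⊔ F (i+1)]`   (`= |Sel_i|`: the map `y ↦ [c_y mod F i]`
  into `H¹(Γ, F (i+1) / F i)` has kernel `cocSub (F i) ⊔ F (i+1)`, see `mem_cocSub_sup_iff`),
* `pG i = [F (i+1) ⊓ cocSub (F i) : F i]`                (`= |(F (i+1) / F i)^Γ| = |P_i^Γ|`).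

With `F 0 = ⊥` this is `|Y_E / (A + W_E)| * ∏ |P_i^Γ| = |W_E^Γ| * ∏ |Sel_i|` (`engine_bot`).
All indices are `AddSubgroup.relIndex` (value `0` = infinite), and the identity holds without any
finiteness hypothesis.  `engine_le` is the inequality form used by ALG0 / (SEL):
`sel i ≤ r ^ a i`, `r ^ b i ≤ pG i` ⟹ the total index is finite and
`[Y_E : A + W_E] * r ^ (∑ b) ≤ |W_E^Γ| * r ^ (∑ a)`.

Auxiliary: `relIndex_le_of_forall_sub_mem` (bound an index by the size of a set of invariants),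
`pG_eq_relIndex_of_trivial`, `pG_eq_one_of_nontrivial` (the two values of `|P_i^Γ|`).
-/

set_option autoImplicit false

namespace Fermat.Agent.S15.H842.Engine

open scoped BigOperators

section Defs

variable (Γ : Type*) [Group Γ] {J : Type*} [AddCommGroup J] [DistribMulAction Γ J]

/-- The points `y` of `J` whose Kummer cocycle `s ↦ s • y - y` takes values in `F`. -/
def cocSub (F : AddSubgroup J) : AddSubgroup J where
  carrier := {y | ∀ s : Γ, s • y - y ∈ F}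
  zero_mem' := by
    intro s
    simp
  add_mem' := by
    intro a b ha hb s
    have h : s • (a + b) - (a + b) = (s • a - a) + (s • b - b) := by
      rw [smul_add]; abel
    rw [h]
    exact F.add_mem (ha s) (hb s)
  neg_mem' := by
    intro a ha s
    have h : s • (-a) - (-a) = -(s • a - a) := by
      rw [smul_neg]; abel
    rw [h]
    exact F.neg_mem (ha s)

/-- `F` is stable under `Γ`. -/
def IsStable (F : AddSubgroup J) : Prop := ∀ (s : Γ) (f : J), f ∈ F → s • f ∈ F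

end Defs

section Basic

variable {Γ : Type*} [Group Γ] {J : Type*} [AddCommGroup J] [DistribMulAction Γ J]

theorem mem_cocSub {F : AddSubgroup J} {y : J} :
    y ∈ cocSub Γ F ↔ ∀ s : Γ, s • y - y ∈ F := Iff.rfl

theorem mem_cocSub_bot {y : J} : y ∈ cocSub Γ (⊥ : AddSubgroup J) ↔ ∀ s : Γ, s • y = y := by
  rw [mem_cocSub]
  constructor
  · intro h s
    have := h s
    rw [AddSubgroup.mem_bot, sub_eq_zero] at this
    exact this
  · intro h s
    rw [AddSubgroup.mem_bot, sub_eq_zero]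
    exact h s

theorem cocSub_mono {F F' : AddSubgroup J} (h : F ≤ F') : cocSub Γ F ≤ cocSub Γ F' :=
  fun _ hy s => h (hy s)

theorem le_cocSub_of_isStable {F : AddSubgroup J} (hF : IsStable Γ F) : F ≤ cocSub Γ F :=
  fun f hf s => F.sub_mem (hF s f hf) hf

theorem isStable_bot : IsStable Γ (⊥ : AddSubgroup J) := by
  intro s f hf
  rw [AddSubgroup.mem_bot] at hf ⊢
  rw [hf, smul_zero]

/-- The kernel of `y ↦ [c_y mod F₀] ∈ H¹(Γ, F₁ / F₀)` on `cocSub Γ F₁` is `cocSub Γ F₀ ⊔ F₁`: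
`y` lies in it iff its cocycle is, modulo `F₀`, the coboundary of some `f ∈ F₁`. -/
theorem mem_cocSub_sup_iff {F₀ F₁ : AddSubgroup J} {y : J} :
    y ∈ cocSub Γ F₀ ⊔ F₁ ↔ ∃ f ∈ F₁, ∀ s : Γ, (s • y - y) - (s • f - f) ∈ F₀ := by
  rw [AddSubgroup.mem_sup]
  constructor
  · rintro ⟨a, ha, f, hf, rfl⟩
    refine ⟨f, hf, fun s => ?_⟩
    have h : (s • (a + f) - (a + f)) - (s • f - f) = s • a - a := by
      rw [smul_add]; abel
    rw [h]
    exact ha s
  · rintro ⟨f, hf, h⟩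
    refine ⟨y - f, fun s => ?_, f, hf, by abel⟩
    have h' : s • (y - f) - (y - f) = (s • y - y) - (s • f - f) := by
      rw [smul_sub]; abel
    rw [h']
    exact h s

end Basic

/-! ## Index bookkeeping in an abelian group -/

section Index

variable {J : Type*} [AddCommGroup J]

/-- second isomorphism theorem + modular law: `[L ⊔ M : K ⊔ M] = [L : K ⊔ (M ⊓ L)]` for `K ≤ L`. -/
theorem relIndex_sup_sup (K L M : AddSubgroup J) (hKL : K ≤ L) :
    (K ⊔ M).relIndex (L ⊔ M) = (K ⊔ M ⊓ L).relIndex L := by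
  have h1 : L ⊔ M = L ⊔ (K ⊔ M) := by
    rw [← sup_assoc, sup_eq_left.2 hKL]
  have h2 : (K ⊔ M) ⊓ L = K ⊔ M ⊓ L := sup_inf_assoc_of_le M hKL
  rw [h1, AddSubgroup.relIndex_sup_right, ← AddSubgroup.inf_relIndex_right, h2]

/-- An index is bounded by the number of values of any invariant separating the cosets. -/
theorem relIndex_le_of_forall_sub_mem {S : Type*} [Finite S] (H K : AddSubgroup J) (κ : J → S)
    (hκ : ∀ y ∈ K, ∀ y' ∈ K, κ y = κ y' → y - y' ∈ H) :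
    H.relIndex K ≠ 0 ∧ H.relIndex K ≤ Nat.card S := by
  classical
  -- the induced map on the quotient `K ⧸ H.addSubgroupOf K` is injective
  let g : (K ⧸ H.addSubgroupOf K) → S := fun q => κ ((Quotient.out q : K) : J)
  have hg : Function.Injective g := by
    intro q q' h
    have h1 : ((Quotient.out q : K) : J) - ((Quotient.out q' : K) : J) ∈ H :=
      hκ _ (Quotient.out q).2 _ (Quotient.out q').2 h
    have h2 : (Quotient.out q : K) - Quotient.out q' ∈ H.addSubgroupOf K := by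
      rw [AddSubgroup.mem_addSubgroupOf]
      simpa using h1
    have h3 : ((Quotient.out q : K) : K ⧸ H.addSubgroupOf K) = (Quotient.out q' : K) := by
      rw [QuotientAddGroup.eq]
      have : -(Quotient.out q : K) + Quotient.out q' = -((Quotient.out q : K) - Quotient.out q') := by
        abel
      rw [this]
      exact (H.addSubgroupOf K).neg_mem h2
    have e1 : ((Quotient.out q : K) : K ⧸ H.addSubgroupOf K) = q := Quotient.out_eq q
    have e2 : ((Quotient.out q' : K) : K ⧸ H.addSubgroupOf K) = q' := Quotient.out_eq q'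
    rw [← e1, ← e2]
    exact h3
  have : Finite (K ⧸ H.addSubgroupOf K) := Finite.of_injective g hg
  refine ⟨?_, ?_⟩
  · show (H.addSubgroupOf K).index ≠ 0
    exact AddSubgroup.index_ne_zero_of_finite
  · show (H.addSubgroupOf K).index ≤ Nat.card S
    rw [AddSubgroup.index]
    exact Nat.card_le_card_of_injective g hg

/-- Indices inside a finite subgroup are non-zero. -/
theorem relIndex_ne_zero_of_finite (H K : AddSubgroup J) [Finite K] : H.relIndex K ≠ 0 := by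
  show (H.addSubgroupOf K).index ≠ 0
  exact AddSubgroup.index_ne_zero_of_finite

end Index

/-! ## One step of the flag -/

section Step

variable {Γ : Type*} [Group Γ] {J : Type*} [AddCommGroup J] [DistribMulAction Γ J]

/-- **ENGINE, one step.**  `F₀ ≤ F₁ ≤ W`, `F₀`, `F₁` stable.  With
`sel = [Y₁ : Y₀ ⊔ F₁]`, `idx = [Y₁ ⊔ W : Y₀ ⊔ W]`, `vⱼ = [W ⊓ Yⱼ : Fⱼ]`, `pG = [F₁ ⊓ Y₀ : F₀]`
(`Yⱼ = cocSub Fⱼ`):  `sel * v₀ = idx * v₁ * pG`. -/
theorem engine_step (F₀ F₁ W : AddSubgroup J) (h01 : F₀ ≤ F₁) (h1W : F₁ ≤ W)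
    (hs0 : IsStable Γ F₀) (hs1 : IsStable Γ F₁) :
    (cocSub Γ F₀ ⊔ F₁).relIndex (cocSub Γ F₁) * F₀.relIndex (W ⊓ cocSub Γ F₀) =
      (cocSub Γ F₀ ⊔ W).relIndex (cocSub Γ F₁ ⊔ W) * F₁.relIndex (W ⊓ cocSub Γ F₁) *
        F₀.relIndex (F₁ ⊓ cocSub Γ F₀) := by
  set Y₀ := cocSub Γ F₀ with hY₀
  set Y₁ := cocSub Γ F₁ with hY₁
  have hY : Y₀ ≤ Y₁ := cocSub_mono h01
  have hF0Y0 : F₀ ≤ Y₀ := le_cocSub_of_isStable hs0
  have hF1Y1 : F₁ ≤ Y₁ := le_cocSub_of_isStable hs1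
  set V₀ := W ⊓ Y₀ with hV₀
  set V₁ := W ⊓ Y₁ with hV₁
  have hF1V1 : F₁ ≤ V₁ := le_inf h1W hF1Y1
  have hV1Y1 : V₁ ≤ Y₁ := inf_le_right
  have hV01 : V₀ ≤ V₁ := inf_le_inf_left W hY
  -- (1) idx = [Y₁ : Y₀ ⊔ V₁]
  have e1 : (Y₀ ⊔ W).relIndex (Y₁ ⊔ W) = (Y₀ ⊔ V₁).relIndex Y₁ :=
    relIndex_sup_sup Y₀ Y₁ W hY
  -- (2) sel = [Y₀ ⊔ V₁ : Y₀ ⊔ F₁] * [Y₁ : Y₀ ⊔ V₁]
  have e2 : (Y₀ ⊔ F₁).relIndex (Y₀ ⊔ V₁) * (Y₀ ⊔ V₁).relIndex Y₁ = (Y₀ ⊔ F₁).relIndex Y₁ :=
    AddSubgroup.relIndex_mul_relIndex _ _ _ (sup_le_sup_left hF1V1 Y₀) (sup_le hY hV1Y1)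
  -- (3) [Y₀ ⊔ V₁ : Y₀ ⊔ F₁] = [V₁ : F₁ ⊔ V₀]
  have e3 : (Y₀ ⊔ F₁).relIndex (Y₀ ⊔ V₁) = (F₁ ⊔ V₀).relIndex V₁ := by
    have h := relIndex_sup_sup F₁ V₁ Y₀ hF1V1
    have hYV : Y₀ ⊓ V₁ = V₀ := by
      rw [hV₁, hV₀, ← inf_assoc, inf_comm Y₀ W, inf_assoc, inf_eq_left.2 hY]
    rw [hYV] at h
    rw [sup_comm Y₀ F₁, sup_comm Y₀ V₁]
    exact h
  -- (4) v₁ = [V₀ : Q] * [V₁ : F₁ ⊔ V₀],  v₀ = pG * [V₀ : Q]
  set Q := F₁ ⊓ Y₀ with hQ
  have hQV : F₁ ⊓ V₀ = Q := by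
    rw [hV₀, hQ, ← inf_assoc, inf_eq_left.2 h1W]
  have e4 : F₁.relIndex V₁ = Q.relIndex V₀ * (F₁ ⊔ V₀).relIndex V₁ := by
    have h := AddSubgroup.relIndex_mul_relIndex F₁ (F₁ ⊔ V₀) V₁ le_sup_left (sup_le hF1V1 hV01)
    rw [AddSubgroup.relIndex_sup_left, ← AddSubgroup.inf_relIndex_right, hQV] at h
    exact h.symm
  have hF0Q : F₀ ≤ Q := le_inf h01 hF0Y0
  have hQV0 : Q ≤ V₀ := by
    rw [← hQV]; exact inf_le_right
  have e5 : F₀.relIndex V₀ = F₀.relIndex Q * Q.relIndex V₀ :=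
    (AddSubgroup.relIndex_mul_relIndex F₀ Q V₀ hF0Q hQV0).symm
  rw [← e2, e1, e3, e4, e5]
  ring

end Step

/-! ## The flag -/

section Flag

variable {Γ : Type*} [Group Γ] {J : Type*} [AddCommGroup J] [DistribMulAction Γ J]

/-- `|Sel_i|`, as an index. -/
noncomputable def sel (Γ : Type*) [Group Γ] {J : Type*} [AddCommGroup J] [DistribMulAction Γ J]
    (F : ℕ → AddSubgroup J) (i : ℕ) : ℕ :=
  (cocSub Γ (F i) ⊔ F (i + 1)).relIndex (cocSub Γ (F (i + 1)))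

/-- `|P_i^Γ|`, as an index. -/
noncomputable def pG (Γ : Type*) [Group Γ] {J : Type*} [AddCommGroup J] [DistribMulAction Γ J]
    (F : ℕ → AddSubgroup J) (i : ℕ) : ℕ :=
  (F i).relIndex (F (i + 1) ⊓ cocSub Γ (F i))

/-- telescoping of the indices `[Y_{i+1} ⊔ W : Y_i ⊔ W]` -/
theorem prod_idx (F : ℕ → AddSubgroup J) (W : AddSubgroup J) (k : ℕ)
    (hmono : ∀ i, i < k → F i ≤ F (i + 1)) :
    ∏ i ∈ Finset.range k, (cocSub Γ (F i) ⊔ W).relIndex (cocSub Γ (F (i + 1)) ⊔ W) =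
      (cocSub Γ (F 0) ⊔ W).relIndex (cocSub Γ (F k) ⊔ W) := by
  induction k with
  | zero => simp [AddSubgroup.relIndex_self]
  | succ k ih =>
    have hle : ∀ j, j ≤ k → F 0 ≤ F j := by
      intro j hj
      induction j with
      | zero => exact le_rfl
      | succ j ihj =>
        exact (ihj (Nat.le_of_succ_le hj)).trans (hmono j (Nat.lt_succ_of_le (Nat.le_of_succ_le hj)))
    rw [Finset.prod_range_succ, ih (fun i hi => hmono i (Nat.lt_succ_of_lt hi))]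
    exact AddSubgroup.relIndex_mul_relIndex _ _ _
      (sup_le_sup_right (cocSub_mono (hle k le_rfl)) W)
      (sup_le_sup_right (cocSub_mono (hmono k (Nat.lt_succ_self k))) W)

/-- **ENGINE (general flag), exact formula up to level `k`.** -/
theorem engine_upto (F : ℕ → AddSubgroup J) (W : AddSubgroup J) (k : ℕ)
    (hmono : ∀ i, i < k → F i ≤ F (i + 1)) (hW : ∀ i, i ≤ k → F i ≤ W)
    (hst : ∀ i, i ≤ k → IsStable Γ (F i)) :
    (∏ i ∈ Finset.range k, sel Γ F i) * (F 0).relIndex (W ⊓ cocSub Γ (F 0)) =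
      (cocSub Γ (F 0) ⊔ W).relIndex (cocSub Γ (F k) ⊔ W) *
        (F k).relIndex (W ⊓ cocSub Γ (F k)) * ∏ i ∈ Finset.range k, pG Γ F i := by
  induction k with
  | zero => simp [AddSubgroup.relIndex_self]
  | succ k ih =>
    have ih' := ih (fun i hi => hmono i (Nat.lt_succ_of_lt hi))
      (fun i hi => hW i (Nat.le_succ_of_le hi)) (fun i hi => hst i (Nat.le_succ_of_le hi))
    have hstep := engine_step (Γ := Γ) (F k) (F (k + 1)) W (hmono k (Nat.lt_succ_self k))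
      (hW (k + 1) le_rfl) (hst k (Nat.le_succ k)) (hst (k + 1) le_rfl)
    have hidx := prod_idx (Γ := Γ) F W
    have h0k := hidx k (fun i hi => hmono i (Nat.lt_succ_of_lt hi))
    have h0k1 := hidx (k + 1) hmono
    rw [Finset.prod_range_succ] at h0k1
    rw [h0k] at h0k1
    rw [Finset.prod_range_succ, Finset.prod_range_succ]
    -- abbreviations
    set S := ∏ i ∈ Finset.range k, sel Γ F i
    set P := ∏ i ∈ Finset.range k, pG Γ F i
    set a := (cocSub Γ (F 0) ⊔ W).relIndex (cocSub Γ (F k) ⊔ W)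
    set b := (cocSub Γ (F k) ⊔ W).relIndex (cocSub Γ (F (k + 1)) ⊔ W)
    set c := (cocSub Γ (F 0) ⊔ W).relIndex (cocSub Γ (F (k + 1)) ⊔ W)
    set v0 := (F 0).relIndex (W ⊓ cocSub Γ (F 0))
    set vk := (F k).relIndex (W ⊓ cocSub Γ (F k))
    set vk1 := (F (k + 1)).relIndex (W ⊓ cocSub Γ (F (k + 1)))
    have hstep' : sel Γ F k * vk = b * vk1 * pG Γ F k := hstep
    calc S * sel Γ F k * v0 = (S * v0) * sel Γ F k := by ring
      _ = (a * vk * P) * sel Γ F k := by rw [ih']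
      _ = a * P * (sel Γ F k * vk) := by ring
      _ = a * P * (b * vk1 * pG Γ F k) := by rw [hstep']
      _ = (a * b) * vk1 * (P * pG Γ F k) := by ring
      _ = c * vk1 * (P * pG Γ F k) := by rw [h0k1]

/-- **ENGINE** for a flag ending at `W = F D`:
`(∏ |Sel_i|) * [W ⊓ Y₀ : F 0] = [Y_D : Y₀ ⊔ W] * ∏ |P_i^Γ|`. -/
theorem engine (F : ℕ → AddSubgroup J) (D : ℕ)
    (hmono : ∀ i, i < D → F i ≤ F (i + 1)) (hst : ∀ i, i ≤ D → IsStable Γ (F i)) :
    (∏ i ∈ Finset.range D, sel Γ F i) * (F 0).relIndex (F D ⊓ cocSub Γ (F 0)) =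
      (cocSub Γ (F 0) ⊔ F D).relIndex (cocSub Γ (F D)) * ∏ i ∈ Finset.range D, pG Γ F i := by
  have hle : ∀ j, j ≤ D → ∀ i, i ≤ j → F i ≤ F j := by
    intro j
    induction j with
    | zero =>
      intro _ i hi
      rw [Nat.le_zero.1 hi]
    | succ j ihj =>
      intro hj i hi
      rcases Nat.eq_or_lt_of_le hi with h | h
      · rw [h]
      · exact (ihj (Nat.le_of_succ_le hj) i (Nat.lt_succ_iff.1 h)).trans
          (hmono j (Nat.lt_of_succ_le hj))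
  have h := engine_upto (Γ := Γ) F (F D) D hmono (fun i hi => hle D le_rfl i hi) hst
  have hD : F D ≤ cocSub Γ (F D) := le_cocSub_of_isStable (hst D le_rfl)
  rw [sup_eq_left.2 hD, inf_eq_left.2 hD, AddSubgroup.relIndex_self, mul_one] at h
  exact h

/-- **ENGINE, blueprint form** (`F 0 = ⊥`):
`(∏ |Sel_i|) * |W^Γ| = [Y_E : A + W] * ∏ |P_i^Γ|`, where `A = cocSub Γ ⊥ = J^Γ`, `W = F D`,
`Y_E = cocSub Γ W`. -/
theorem engine_bot (F : ℕ → AddSubgroup J) (D : ℕ) (h0 : F 0 = ⊥)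
    (hmono : ∀ i, i < D → F i ≤ F (i + 1)) (hst : ∀ i, i ≤ D → IsStable Γ (F i)) :
    (∏ i ∈ Finset.range D, sel Γ F i) *
        Nat.card ↥(F D ⊓ cocSub Γ (⊥ : AddSubgroup J)) =
      (cocSub Γ (⊥ : AddSubgroup J) ⊔ F D).relIndex (cocSub Γ (F D)) *
        ∏ i ∈ Finset.range D, pG Γ F i := by
  have h := engine (Γ := Γ) F D hmono hst
  rw [h0, AddSubgroup.relIndex_bot_left] at h
  exact h

end Flag

/-! ## Values of `|P_i^Γ|` and the inequality form -/

section Bounds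

variable {Γ : Type*} [Group Γ] {J : Type*} [AddCommGroup J] [DistribMulAction Γ J]

/-- If `Γ` acts trivially on `F₁ / F₀`, then `|P^Γ| = [F₁ : F₀]`. -/
theorem pG_eq_relIndex_of_trivial (F₀ F₁ : AddSubgroup J)
    (htriv : ∀ f ∈ F₁, ∀ s : Γ, s • f - f ∈ F₀) :
    F₀.relIndex (F₁ ⊓ cocSub Γ F₀) = F₀.relIndex F₁ := by
  have h : F₁ ⊓ cocSub Γ F₀ = F₁ := inf_eq_left.2 (fun f hf => htriv f hf)
  rw [h]

/-- If `[F₁ : F₀]` is a prime `r` and `Γ` does not act trivially on `F₁ / F₀`, then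
`|P^Γ| = 1`. -/
theorem pG_eq_one_of_nontrivial (F₀ F₁ : AddSubgroup J) (h01 : F₀ ≤ F₁)
    (hs0 : IsStable Γ F₀) {r : ℕ} (hr : r.Prime) (hidx : F₀.relIndex F₁ = r)
    (hnt : ∃ f ∈ F₁, ∃ s : Γ, s • f - f ∉ F₀) :
    F₀.relIndex (F₁ ⊓ cocSub Γ F₀) = 1 := by
  set Q := F₁ ⊓ cocSub Γ F₀ with hQ
  have hF0Q : F₀ ≤ Q := le_inf h01 (le_cocSub_of_isStable hs0)
  have hQF1 : Q ≤ F₁ := inf_le_left
  have hmul : F₀.relIndex Q * Q.relIndex F₁ = r := by
    rw [AddSubgroup.relIndex_mul_relIndex F₀ Q F₁ hF0Q hQF1, hidx]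
  have hdvd : F₀.relIndex Q ∣ r := Dvd.intro _ hmul
  rcases (Nat.dvd_prime hr).1 hdvd with h1 | hr'
  · exact h1
  · exfalso
    rw [hr'] at hmul
    have h2 : Q.relIndex F₁ = 1 := by
      have hpos : 0 < r := hr.pos
      have : r * Q.relIndex F₁ = r * 1 := by rw [hmul, mul_one]
      exact Nat.eq_of_mul_eq_mul_left hpos this
    have h3 : F₁ ≤ Q := AddSubgroup.relIndex_eq_one.1 h2
    obtain ⟨f, hf, s, hfs⟩ := hnt
    exact hfs ((h3 hf).2 s)

/-- **ENGINE, inequality form** (what (SEL) consumes).  `W = F D` finite, `F 0 = ⊥`; if for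
every piece `|Sel_i|` is finite and `≤ r ^ a i`, and `r ^ b i ≤ |P_i^Γ|`, then the index
`[Y_E : A + W]` is finite and `[Y_E : A + W] * r ^ (∑ b) ≤ |W^Γ| * r ^ (∑ a)`. -/
theorem engine_le (F : ℕ → AddSubgroup J) (D : ℕ) (h0 : F 0 = ⊥)
    (hmono : ∀ i, i < D → F i ≤ F (i + 1)) (hst : ∀ i, i ≤ D → IsStable Γ (F i))
    [Finite (F D)] (r : ℕ) (a b : ℕ → ℕ)
    (hsel : ∀ i, i < D → sel Γ F i ≠ 0 ∧ sel Γ F i ≤ r ^ a i)
    (hpG : ∀ i, i < D → r ^ b i ≤ pG Γ F i) :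
    (cocSub Γ (⊥ : AddSubgroup J) ⊔ F D).relIndex (cocSub Γ (F D)) ≠ 0 ∧
      (cocSub Γ (⊥ : AddSubgroup J) ⊔ F D).relIndex (cocSub Γ (F D)) *
          r ^ (∑ i ∈ Finset.range D, b i) ≤
        Nat.card ↥(F D ⊓ cocSub Γ (⊥ : AddSubgroup J)) * r ^ (∑ i ∈ Finset.range D, a i) := by
  classical
  have h := engine_bot (Γ := Γ) F D h0 hmono hst
  set T := (cocSub Γ (⊥ : AddSubgroup J) ⊔ F D).relIndex (cocSub Γ (F D)) with hT
  set c := Nat.card ↥(F D ⊓ cocSub Γ (⊥ : AddSubgroup J)) with hc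
  have hle : ∀ j, j ≤ D → F j ≤ F D := by
    intro j hj
    obtain ⟨k, rfl⟩ := Nat.exists_eq_add_of_le hj
    clear hj hsel hpG h hst
    induction k with
    | zero => exact le_rfl
    | succ k ih =>
      have h1 : F j ≤ F (j + k) := by
        -- monotone along the flag
        have : ∀ m, j + m ≤ j + (k + 1) → F j ≤ F (j + m) := by
          intro m
          induction m with
          | zero => intro _; exact le_rfl
          | succ m ihm =>
            intro hm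
            exact (ihm (Nat.le_of_succ_le hm)).trans (hmono (j + m) (Nat.lt_of_succ_le hm))
        exact this k (by omega)
      exact h1.trans (hmono (j + k) (by omega))
  -- the finite pieces have non-zero `pG`
  have hpGpos : ∀ i, i < D → pG Γ F i ≠ 0 := by
    intro i hi
    have hfin : Finite ↥(F (i + 1) ⊓ cocSub Γ (F i)) :=
      Finite.of_injective
        (fun x : ↥(F (i + 1) ⊓ cocSub Γ (F i)) =>
          (⟨x.1, hle (i + 1) hi (x.2.1)⟩ : ↥(F D)))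
        (fun x y hxy => Subtype.ext (by simpa using congrArg Subtype.val hxy))
    exact relIndex_ne_zero_of_finite _ _
  have hcpos : c ≠ 0 := by
    have hfin : Finite ↥(F D ⊓ cocSub Γ (⊥ : AddSubgroup J)) :=
      Finite.of_injective
        (fun x : ↥(F D ⊓ cocSub Γ (⊥ : AddSubgroup J)) => (⟨x.1, x.2.1⟩ : ↥(F D)))
        (fun x y hxy => Subtype.ext (by simpa using congrArg Subtype.val hxy))
    exact Nat.card_pos.ne'
  have hSpos : ∏ i ∈ Finset.range D, sel Γ F i ≠ 0 :=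
    Finset.prod_ne_zero_iff.2 (fun i hi => (hsel i (Finset.mem_range.1 hi)).1)
  have hPpos : ∏ i ∈ Finset.range D, pG Γ F i ≠ 0 :=
    Finset.prod_ne_zero_iff.2 (fun i hi => hpGpos i (Finset.mem_range.1 hi))
  have hTpos : T ≠ 0 := by
    intro hT0
    rw [hT0, zero_mul] at h
    exact (mul_ne_zero hSpos hcpos) h
  refine ⟨hTpos, ?_⟩
  have hS : ∏ i ∈ Finset.range D, sel Γ F i ≤ r ^ (∑ i ∈ Finset.range D, a i) := by
    rw [← Finset.prod_pow_eq_pow_sum]
    exact Finset.prod_le_prod' (fun i hi => (hsel i (Finset.mem_range.1 hi)).2)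
  have hP : r ^ (∑ i ∈ Finset.range D, b i) ≤ ∏ i ∈ Finset.range D, pG Γ F i := by
    rw [← Finset.prod_pow_eq_pow_sum]
    exact Finset.prod_le_prod' (fun i hi => hpG i (Finset.mem_range.1 hi))
  calc T * r ^ (∑ i ∈ Finset.range D, b i)
      ≤ T * ∏ i ∈ Finset.range D, pG Γ F i := Nat.mul_le_mul_left _ hP
    _ = (∏ i ∈ Finset.range D, sel Γ F i) * c := h.symm
    _ ≤ r ^ (∑ i ∈ Finset.range D, a i) * c := Nat.mul_le_mul_right _ hS
    _ = c * r ^ (∑ i ∈ Finset.range D, a i) := Nat.mul_comm _ _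

end Bounds

end Fermat.Agent.S15.H842.Engine
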