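import Fermat.Agent.S15.H208.TopAlt
import Fermat.Agent.S15.H842.Engine

/-!
# S15 / DESC — leaf ENGINE-gen of the assembly without T7      (helper842)

`engineGenStatement : Fermat.Agent.S15.H208.EngineGenStatement` (VERBATIM, unconditional):

  `[Y(W_E) : A + W_E] ≠ 0` and `[Y(W_E) : A + W_E] * |W_E| ≤ |W_E ∩ A| * (|K| * |U|)`,

for a flag of Eisenstein pieces satisfying the step bounds relative to `K`, `U ≤ W_E`
(no hypothesis on `|K| |U|`).

Proof: the exact formula `Engine.engine_bot`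
`(∏ s_i) * |W_E^G| = [Y(W_E) : A + W_E] * ∏ g_i` of `Fermat/Agent/S15/H842/Engine.lean`, the step
bounds `s_i * r^(et_i) ≤ r^(ram_i) * g_i`, and the count of the jumps of the induced filtrations
`F_i ∩ K`, `F_i ∩ U`, `F_i ∩ W_E` (`card_inf_flag`): `|K| = r^(#¬et)`, `|U| = r^(#ram)`,
`|W_E| = r^D`.

The abstract form (any group `Γ` acting on any `J`) is `engine_abs_gen`.
-/

set_option autoImplicit false

namespace Fermat.Agent.S15.H842.EngineGen

open Fermat.Agent.S15.H842.Engine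
open scoped BigOperators

/-! ## Jumps of an induced filtration (Mathlib only) -/

section Jump

variable {J : Type*} [AddCommGroup J]

open scoped Classical in
/-- `jmp F K i = 1` if the induced filtration `F ∩ K` jumps at step `i`, else `0`. -/
noncomputable def jmp (F : ℕ → AddSubgroup J) (K : AddSubgroup J) (i : ℕ) : ℕ :=
  if F (i + 1) ⊓ K ≤ F i then 0 else 1

theorem jmp_pos {F : ℕ → AddSubgroup J} {K : AddSubgroup J} {i : ℕ}
    (h : F (i + 1) ⊓ K ≤ F i) : jmp F K i = 0 := by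
  unfold jmp
  rw [if_pos h]

theorem jmp_neg {F : ℕ → AddSubgroup J} {K : AddSubgroup J} {i : ℕ}
    (h : ¬ F (i + 1) ⊓ K ≤ F i) : jmp F K i = 1 := by
  unfold jmp
  rw [if_neg h]

theorem jmp_le_one (F : ℕ → AddSubgroup J) (K : AddSubgroup J) (i : ℕ) : jmp F K i ≤ 1 := by
  by_cases h : F (i + 1) ⊓ K ≤ F i
  · rw [jmp_pos h]; exact Nat.zero_le 1
  · rw [jmp_neg h]

theorem relIndex_inf_eq (F' F K : AddSubgroup J) (hle : F' ≤ F) :
    (F' ⊓ K).relIndex (F ⊓ K) = F'.relIndex (F ⊓ K) := by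
  have h0 : F' ⊓ (F ⊓ K) = F' ⊓ K := by
    rw [← inf_assoc, inf_eq_left.2 hle]
  rw [← AddSubgroup.inf_relIndex_right F' (F ⊓ K), h0]

theorem relIndex_inf_step_pos (F' F K : AddSubgroup J) (hle : F' ≤ F) (hX : F ⊓ K ≤ F') :
    (F' ⊓ K).relIndex (F ⊓ K) = 1 := by
  rw [relIndex_inf_eq F' F K hle]
  exact AddSubgroup.relIndex_eq_one.2 hX

theorem relIndex_inf_step_neg (F' F K : AddSubgroup J) (hle : F' ≤ F) {r : ℕ} (hr : r.Prime)
    (hidx : F'.relIndex F = r) (hX : ¬ F ⊓ K ≤ F') :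
    (F' ⊓ K).relIndex (F ⊓ K) = r := by
  rw [relIndex_inf_eq F' F K hle]
  have h2 : F'.relIndex (F ⊓ K) * (F' ⊔ F ⊓ K).relIndex F = r := by
    have h := AddSubgroup.relIndex_mul_relIndex F' (F' ⊔ F ⊓ K) F le_sup_left
      (sup_le hle inf_le_left)
    rw [AddSubgroup.relIndex_sup_left, hidx] at h
    exact h
  have hdvd : F'.relIndex (F ⊓ K) ∣ r := Dvd.intro _ h2
  rcases (Nat.dvd_prime hr).1 hdvd with h | h
  · exact absurd (AddSubgroup.relIndex_eq_one.1 h) hX
  · exact h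

theorem card_inf_succ (F' F K : AddSubgroup J) (hle : F' ≤ F) :
    Nat.card ↥(F ⊓ K) = Nat.card ↥(F' ⊓ K) * (F' ⊓ K).relIndex (F ⊓ K) := by
  have h := AddSubgroup.relIndex_mul_relIndex (⊥ : AddSubgroup J) (F' ⊓ K) (F ⊓ K) bot_le
    (inf_le_inf_right K hle)
  rw [AddSubgroup.relIndex_bot_left, AddSubgroup.relIndex_bot_left] at h
  exact h.symm

/-- **Jump count**: for a flag with steps of prime index `r`, `|F k ∩ K| = r ^ (#jumps)`. -/
theorem card_inf_flag (F : ℕ → AddSubgroup J) (K : AddSubgroup J) {r : ℕ} (hr : r.Prime)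
    (h0 : F 0 = ⊥) (k : ℕ)
    (hstep : ∀ i, i < k → F i ≤ F (i + 1) ∧ (F i).relIndex (F (i + 1)) = r) :
    Nat.card ↥(F k ⊓ K) = r ^ (∑ i ∈ Finset.range k, jmp F K i) := by
  induction k with
  | zero =>
    rw [h0, bot_inf_eq]
    simp
  | succ k ih =>
    have ih' := ih (fun i hi => hstep i (Nat.lt_succ_of_lt hi))
    obtain ⟨hle, hidx⟩ := hstep k (Nat.lt_succ_self k)
    rw [card_inf_succ (F k) (F (k + 1)) K hle, ih', Finset.sum_range_succ, pow_add]
    by_cases hX : F (k + 1) ⊓ K ≤ F k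
    · rw [relIndex_inf_step_pos (F k) (F (k + 1)) K hle hX, jmp_pos hX, pow_zero]
    · rw [relIndex_inf_step_neg (F k) (F (k + 1)) K hle hr hidx hX, jmp_neg hX, pow_one]

end Jump

/-! ## The abstract engine inequality -/

section Abs

variable {Γ : Type*} [Group Γ] {J : Type*} [AddCommGroup J] [DistribMulAction Γ J]

/-- The step bound in the abstract setting (`s = Engine.sel`, `g = Engine.pG`). -/
def AbsStep (Γ : Type*) [Group Γ] {J : Type*} [AddCommGroup J] [DistribMulAction Γ J]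
    (r : ℕ) (K U : AddSubgroup J) (F : ℕ → AddSubgroup J) (i : ℕ) : Prop :=
  Engine.sel Γ F i ≠ 0 ∧
  (F (i + 1) ⊓ K ≤ F i → F (i + 1) ⊓ U ≤ F i → Engine.sel Γ F i * r ≤ Engine.pG Γ F i) ∧
  (F (i + 1) ⊓ K ≤ F i → ¬ F (i + 1) ⊓ U ≤ F i → Engine.sel Γ F i ≤ Engine.pG Γ F i) ∧
  (¬ F (i + 1) ⊓ K ≤ F i → F (i + 1) ⊓ U ≤ F i → Engine.sel Γ F i ≤ Engine.pG Γ F i) ∧
  (¬ F (i + 1) ⊓ K ≤ F i → ¬ F (i + 1) ⊓ U ≤ F i → Engine.sel Γ F i ≤ r * Engine.pG Γ F i)

theorem absStep_le {r : ℕ} {K U : AddSubgroup J} {F : ℕ → AddSubgroup J} {i : ℕ}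
    (h : AbsStep Γ r K U F i) :
    Engine.sel Γ F i * r ^ (1 - jmp F K i) ≤ r ^ (jmp F U i) * Engine.pG Γ F i := by
  obtain ⟨_, h1, h2, h3, h4⟩ := h
  by_cases hk : F (i + 1) ⊓ K ≤ F i
  · by_cases hu : F (i + 1) ⊓ U ≤ F i
    · have e : Engine.sel Γ F i * r ^ (1 - jmp F K i) = Engine.sel Γ F i * r := by
        rw [jmp_pos hk]; simp
      have e' : r ^ (jmp F U i) * Engine.pG Γ F i = Engine.pG Γ F i := by
        rw [jmp_pos hu]; simp
      rw [e, e']
      exact h1 hk hu
    · have e : Engine.sel Γ F i * r ^ (1 - jmp F K i) = Engine.sel Γ F i * r := by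
        rw [jmp_pos hk]; simp
      have e' : r ^ (jmp F U i) * Engine.pG Γ F i = r * Engine.pG Γ F i := by
        rw [jmp_neg hu]; simp
      rw [e, e']
      calc Engine.sel Γ F i * r ≤ Engine.pG Γ F i * r := Nat.mul_le_mul_right _ (h2 hk hu)
        _ = r * Engine.pG Γ F i := Nat.mul_comm _ _
  · by_cases hu : F (i + 1) ⊓ U ≤ F i
    · have e : Engine.sel Γ F i * r ^ (1 - jmp F K i) = Engine.sel Γ F i := by
        rw [jmp_neg hk]; simp
      have e' : r ^ (jmp F U i) * Engine.pG Γ F i = Engine.pG Γ F i := by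
        rw [jmp_pos hu]; simp
      rw [e, e']
      exact h3 hk hu
    · have e : Engine.sel Γ F i * r ^ (1 - jmp F K i) = Engine.sel Γ F i := by
        rw [jmp_neg hk]; simp
      have e' : r ^ (jmp F U i) * Engine.pG Γ F i = r * Engine.pG Γ F i := by
        rw [jmp_neg hu]; simp
      rw [e, e']
      exact h4 hk hu

/-- **ENGINE-gen, abstract form.** -/
theorem engine_abs_gen (F : ℕ → AddSubgroup J) (D : ℕ) {r : ℕ} (hr : r.Prime) (h0 : F 0 = ⊥)
    (hmono : ∀ i, i < D → F i ≤ F (i + 1))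
    (hst : ∀ i, i ≤ D → Engine.IsStable Γ (F i))
    (hidx : ∀ i, i < D → (F i).relIndex (F (i + 1)) = r)
    (hfin : Finite ↥(F D)) (K U : AddSubgroup J) (hK : K ≤ F D) (hU : U ≤ F D)
    (hstep : ∀ i, i < D → AbsStep Γ r K U F i) :
    (cocSub Γ (⊥ : AddSubgroup J) ⊔ F D).relIndex (cocSub Γ (F D)) ≠ 0 ∧
      (cocSub Γ (⊥ : AddSubgroup J) ⊔ F D).relIndex (cocSub Γ (F D)) * Nat.card ↥(F D) ≤
        Nat.card ↥(F D ⊓ cocSub Γ (⊥ : AddSubgroup J)) * (Nat.card ↥K * Nat.card ↥U) := by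
  have hrpos : 0 < r := hr.pos
  have hleD : ∀ j, j ≤ D → F j ≤ F D := by
    intro j hj
    obtain ⟨k, hk⟩ := Nat.exists_eq_add_of_le hj
    have : ∀ m, j + m ≤ D → F j ≤ F (j + m) := by
      intro m
      induction m with
      | zero => intro _; exact le_rfl
      | succ m ihm =>
        intro hm
        exact (ihm (by omega)).trans (hmono (j + m) (by omega))
    rw [hk]
    exact this k (by omega)
  -- the exact formula
  have hE := engine_bot (Γ := Γ) F D h0 hmono hst
  -- positivity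
  have hgpos : ∀ i, i < D → Engine.pG Γ F i ≠ 0 := by
    intro i hi
    have hfin' : Finite ↥(F (i + 1) ⊓ cocSub Γ (F i)) :=
      Finite.of_injective
        (fun x : ↥(F (i + 1) ⊓ cocSub Γ (F i)) => (⟨x.1, hleD (i + 1) hi x.2.1⟩ : ↥(F D)))
        (fun x y hxy => Subtype.ext (by simpa using congrArg Subtype.val hxy))
    exact relIndex_ne_zero_of_finite _ _
  have hGpos : (∏ i ∈ Finset.range D, Engine.pG Γ F i) ≠ 0 :=
    Finset.prod_ne_zero_iff.2 (fun i hi => hgpos i (Finset.mem_range.1 hi))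
  have hcpos : Nat.card ↥(F D ⊓ cocSub Γ (⊥ : AddSubgroup J)) ≠ 0 := by
    have hfin' : Finite ↥(F D ⊓ cocSub Γ (⊥ : AddSubgroup J)) :=
      Finite.of_injective
        (fun x : ↥(F D ⊓ cocSub Γ (⊥ : AddSubgroup J)) => (⟨x.1, x.2.1⟩ : ↥(F D)))
        (fun x y hxy => Subtype.ext (by simpa using congrArg Subtype.val hxy))
    exact Nat.card_pos.ne'
  have hSpos : (∏ i ∈ Finset.range D, Engine.sel Γ F i) ≠ 0 :=
    Finset.prod_ne_zero_iff.2 (fun i hi => (hstep i (Finset.mem_range.1 hi)).1)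
  -- jump counts
  have hflag : ∀ i, i < D → F i ≤ F (i + 1) ∧ (F i).relIndex (F (i + 1)) = r :=
    fun i hi => ⟨hmono i hi, hidx i hi⟩
  have hcardK : Nat.card ↥K = r ^ (∑ i ∈ Finset.range D, jmp F K i) := by
    have h := card_inf_flag F K hr h0 D hflag
    rw [inf_eq_right.2 hK] at h
    exact h
  have hcardU : Nat.card ↥U = r ^ (∑ i ∈ Finset.range D, jmp F U i) := by
    have h := card_inf_flag F U hr h0 D hflag
    rw [inf_eq_right.2 hU] at h
    exact h
  have hcardW : Nat.card ↥(F D) = r ^ D := by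
    have h := card_inf_flag F (F D) hr h0 D hflag
    rw [inf_idem] at h
    have hsum : ∑ i ∈ Finset.range D, jmp F (F D) i = D := by
      have : ∀ i ∈ Finset.range D, jmp F (F D) i = 1 := by
        intro i hi
        have hi' := Finset.mem_range.1 hi
        apply jmp_neg
        intro hle
        rw [inf_eq_left.2 (hleD (i + 1) hi')] at hle
        have h1 : (F i).relIndex (F (i + 1)) = 1 := AddSubgroup.relIndex_eq_one.2 hle
        rw [hidx i hi'] at h1
        exact hr.one_lt.ne' h1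
      rw [Finset.sum_congr rfl this]
      simp
    rw [hsum] at h
    exact h
  have hprod : (∏ i ∈ Finset.range D, Engine.sel Γ F i) *
        r ^ (∑ i ∈ Finset.range D, (1 - jmp F K i)) ≤
      r ^ (∑ i ∈ Finset.range D, jmp F U i) * ∏ i ∈ Finset.range D, Engine.pG Γ F i := by
    have h := Finset.prod_le_prod (s := Finset.range D)
      (f := fun i => Engine.sel Γ F i * r ^ (1 - jmp F K i))
      (g := fun i => r ^ (jmp F U i) * Engine.pG Γ F i)
      (fun i _ => Nat.zero_le _)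
      (fun i hi => absStep_le (hstep i (Finset.mem_range.1 hi)))
    rw [Finset.prod_mul_distrib, Finset.prod_mul_distrib, Finset.prod_pow_eq_pow_sum,
      Finset.prod_pow_eq_pow_sum] at h
    exact h
  have hEt : (∑ i ∈ Finset.range D, (1 - jmp F K i)) + (∑ i ∈ Finset.range D, jmp F K i) = D := by
    rw [← Finset.sum_add_distrib]
    have : ∀ i ∈ Finset.range D, (1 - jmp F K i) + jmp F K i = 1 := by
      intro i _
      have := jmp_le_one F K i
      omega
    rw [Finset.sum_congr rfl this]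
    simp
  -- name the numbers
  rw [hcardK, hcardU, hcardW]
  generalize (∑ i ∈ Finset.range D, (1 - jmp F K i)) = Et at hprod hEt
  generalize (∑ i ∈ Finset.range D, jmp F K i) = jK at hEt ⊢
  generalize (∑ i ∈ Finset.range D, jmp F U i) = jU at hprod ⊢
  generalize (∏ i ∈ Finset.range D, Engine.sel Γ F i) = Sp at hE hSpos hprod
  generalize (∏ i ∈ Finset.range D, Engine.pG Γ F i) = G at hE hGpos hprod
  generalize Nat.card ↥(F D ⊓ cocSub Γ (⊥ : AddSubgroup J)) = c at hE hcpos ⊢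
  generalize (cocSub Γ (⊥ : AddSubgroup J) ⊔ F D).relIndex (cocSub Γ (F D)) = T at hE ⊢
  have hTpos : T ≠ 0 := by
    intro hT0
    rw [hT0, zero_mul] at hE
    exact (mul_ne_zero hSpos hcpos) hE
  have hD : r ^ D = r ^ Et * r ^ jK := by rw [← pow_add, hEt]
  have hmain : T * r ^ D * G ≤ c * (r ^ jK * r ^ jU) * G := by
    calc T * r ^ D * G = (T * G) * r ^ Et * r ^ jK := by rw [hD]; ring
      _ = (Sp * c) * r ^ Et * r ^ jK := by rw [← hE]
      _ = c * (Sp * r ^ Et) * r ^ jK := by ring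
      _ ≤ c * (r ^ jU * G) * r ^ jK :=
          Nat.mul_le_mul_right _ (Nat.mul_le_mul_left _ hprod)
      _ = c * (r ^ jK * r ^ jU) * G := by ring
  exact ⟨hTpos, Nat.le_of_mul_le_mul_right hmain (Nat.pos_of_ne_zero hGpos)⟩

end Abs

/-! ## Dictionary with the frozen skeleton -/

section Dict

open Fermat.Agent.S15.H975

theorem smul_nsmul_comm {Γ : Type*} [Group Γ] {J : Type*} [AddCommGroup J]
    [DistribMulAction Γ J] (s : Γ) (n : ℕ) (y : J) : s • (n • y) = n • (s • y) :=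
  map_nsmul (DistribSMul.toAddMonoidHom J s) n y

theorem rat_eq_cocSub (p : ℕ) [NeZero p] :
    rat p = cocSub Gal (⊥ : AddSubgroup (ModularCurve.JZero p)) := by
  ext x
  rw [mem_cocSub_bot]
  exact Iff.rfl

theorem sel_eq_cocSub (p : ℕ) [NeZero p] (r : ℕ) (F : AddSubgroup (ModularCurve.JZero p))
    (hF : F ≤ tors p r) : sel p r F = cocSub Gal F := by
  ext y
  constructor
  · intro hy
    exact hy.2
  · intro hy
    refine ⟨fun σ => ?_, hy⟩
    have h1 : r • (σ • y - y) = 0 := hF (hy σ)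
    rw [smul_nsmul_comm]
    rw [nsmul_sub, sub_eq_zero] at h1
    exact h1

theorem sel_bot (p : ℕ) [NeZero p] (r : ℕ) :
    sel p r (⊥ : AddSubgroup (ModularCurve.JZero p)) = rat p := by
  rw [sel_eq_cocSub p r ⊥ bot_le, rat_eq_cocSub]

theorem selIndex_eq (p : ℕ) [NeZero p] (r : ℕ) (F : ℕ → AddSubgroup (ModularCurve.JZero p))
    (i : ℕ) (h : F (i + 1) ≤ tors p r) (h' : F i ≤ tors p r) :
    selIndex p r (F i) (F (i + 1)) = Engine.sel Gal F i := by
  unfold selIndex Engine.sel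
  rw [sel_eq_cocSub p r _ h', sel_eq_cocSub p r _ h]

theorem fixIndex_eq (p : ℕ) [NeZero p] (r : ℕ) (F : ℕ → AddSubgroup (ModularCurve.JZero p))
    (i : ℕ) (h' : F i ≤ tors p r) :
    fixIndex p r (F i) (F (i + 1)) = Engine.pG Gal F i := by
  unfold fixIndex Engine.pG
  rw [sel_eq_cocSub p r _ h']

theorem absStep_of_stepBound (p : ℕ) [NeZero p] (r : ℕ)
    (K U : AddSubgroup (ModularCurve.JZero p)) (F : ℕ → AddSubgroup (ModularCurve.JZero p))
    (i : ℕ) (h : F (i + 1) ≤ tors p r) (h' : F i ≤ tors p r)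
    (hs : StepBound p r K U (F i) (F (i + 1))) : AbsStep Gal r K U F i := by
  unfold StepBound at hs
  rw [selIndex_eq p r F i h h', fixIndex_eq p r F i h'] at hs
  exact hs

end Dict

/-! ## The leaf -/

open Fermat.Agent.S15.H975 Fermat.Agent.S15.H208 in
/-- **ENGINE-gen** (leaf of `Fermat/Agent/S15/H208/TopAlt.lean`, verbatim). -/
theorem engineGenStatement : EngineGenStatement := by
  intro p _ S r hr hW K U hK hU D F hF hstep
  obtain ⟨h0, hD, hpiece⟩ := hF
  have hmono : ∀ i, i < D → F i ≤ F (i + 1) := fun i hi => (hpiece i hi).1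
  have hidx : ∀ i, i < D → (F i).relIndex (F (i + 1)) = r := fun i hi => (hpiece i hi).2.2.2.1
  have hst : ∀ i, i ≤ D → Engine.IsStable Gal (F i) := by
    intro i hi
    rcases Nat.eq_or_lt_of_le hi with h | h
    · rcases Nat.eq_zero_or_pos i with h' | h'
      · rw [h', h0]
        exact isStable_bot
      · have hp := hpiece (i - 1) (by omega)
        have e : i - 1 + 1 = i := by omega
        rw [e] at hp
        exact fun s f hf => hp.2.2.1 s f hf
    · exact fun s f hf => (hpiece i h).2.1 s f hf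
  have hleD : ∀ j, j ≤ D → F j ≤ F D := by
    intro j hj
    obtain ⟨k, hk⟩ := Nat.exists_eq_add_of_le hj
    have : ∀ m, j + m ≤ D → F j ≤ F (j + m) := by
      intro m
      induction m with
      | zero => intro _; exact le_rfl
      | succ m ihm =>
        intro hm
        exact (ihm (by omega)).trans (hmono (j + m) (by omega))
    rw [hk]
    exact this k (by omega)
  have hWE : eis p S r ≤ tors p r := fun w hw => hw.1
  have hFtors : ∀ j, j ≤ D → F j ≤ tors p r := fun j hj => ((hleD j hj).trans hD.le).trans hWE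
  have hfinD : Finite ↥(F D) :=
    Finite.of_injective (fun x : ↥(F D) => (⟨x.1, hFtors D le_rfl x.2⟩ : ↥(tors p r)))
      (fun x y hxy => Subtype.ext (by simpa using congrArg Subtype.val hxy))
  have hKD : K ≤ F D := hD.symm ▸ hK
  have hUD : U ≤ F D := hD.symm ▸ hU
  have habs := engine_abs_gen (Γ := Gal) F D hr h0 hmono hst hidx hfinD K U hKD hUD
    (fun i hi => absStep_of_stepBound p r K U F i (hFtors (i + 1) hi) (hFtors i hi.le)
      (hstep i hi))
  have hselD : sel p r (eis p S r) = cocSub Gal (F D) := by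
    rw [sel_eq_cocSub p r _ hWE, hD]
  have hrat : rat p ⊔ eis p S r = cocSub Gal (⊥ : AddSubgroup (ModularCurve.JZero p)) ⊔ F D := by
    rw [rat_eq_cocSub, hD]
  have hcap : eis p S r ⊓ rat p =
      F D ⊓ cocSub Gal (⊥ : AddSubgroup (ModularCurve.JZero p)) := by
    rw [rat_eq_cocSub, hD]
  rw [hrat, hselD, hcap, ← hD]
  exact habs

end Fermat.Agent.S15.H842.EngineGen
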