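import Mathlib

/-!
# S15, piece DESC-KUM (helper842): the Kummer map into `groupCohomology.H1`

`Γ` a group acting on an abelian group `J` by additive automorphisms, `r` a prime,
`W = J[r]` (`rTors J r`), made into `torsRep Γ J r : Rep (ZMod r) Γ`.

* `kummerCocycle y hy : cocycles₁ (torsRep Γ J r)` for `y : J` with `r • y ∈ J^Γ`:
  the cocycle `σ ↦ σ y - y`;
* `kummerClass y hy : H1 (torsRep Γ J r)` its class; it depends only on `r • y`
  (`kummerClass_eq_of_nsmul_eq`), is additive in `y`, and vanishes iff `r • y ∈ r • J^Γ`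
  (`kummerClass_eq_zero_iff`);
* `kummer hdiv : J^Γ →+ H1 (torsRep Γ J r)` (given `hdiv : ∀ z ∈ J^Γ, ∃ y, r • y = z`), with
  `kummer_ker : ker = range (r • ·)`, hence `kummerQuot hdiv : J^Γ ⧸ r J^Γ →+ H1` injective;
* `res_kummerClass_eq_zero_iff` : the restriction of the class to a subgroup `loc : H →* Γ`
  (in the form `groupCohomology.map loc (𝟙 _) 1` used by the Prelude's `groupCohomology.selmer`)
  vanishes iff some `r`-division point of `r • y` is fixed by `H`;
* `torsMap t : torsRep Γ J r ⟶ torsRep Γ J r` for an additive endomorphism `t` of `J` commuting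
  with `Γ`, and `map_kummerClass` : `H¹(t) (κ y) = κ (t y)` (Hecke equivariance).

Everything is Mathlib-only.
-/

set_option autoImplicit false

noncomputable section

namespace Fermat.Agent.S15.H842

open groupCohomology CategoryTheory

section tors

variable (Γ : Type) [Group Γ] (J : Type) [AddCommGroup J] [DistribMulAction Γ J] (r : ℕ)

/-- `J[r]`, the subgroup of points killed by `r`. -/
def rTors : AddSubgroup J := (nsmulAddMonoidHom r : J →+ J).ker

variable {J r}

lemma mem_rTors {w : J} : w ∈ rTors J r ↔ r • w = 0 := Iff.rfl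

variable {Γ}

lemma smul_mem_rTors (σ : Γ) {w : J} (hw : w ∈ rTors J r) : σ • w ∈ rTors J r := by
  rw [mem_rTors] at hw ⊢
  rw [← smul_comm σ r w, hw, smul_zero]

instance rTorsSMul : SMul Γ (rTors J r) := ⟨fun σ w => ⟨σ • (w : J), smul_mem_rTors σ w.2⟩⟩

@[simp] lemma coe_smul_rTors (σ : Γ) (w : rTors J r) : ((σ • w : rTors J r) : J) = σ • (w : J) :=
  rfl

instance rTorsDistribMulAction : DistribMulAction Γ (rTors J r) :=
  Function.Injective.distribMulAction (rTors J r).subtype Subtype.val_injective fun _ _ => rfl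

lemma nsmul_rTors (w : rTors J r) : r • w = 0 :=
  Subtype.ext (by rw [AddSubgroup.coe_nsmul]; exact w.2)

instance rTorsModule : Module (ZMod r) (rTors J r) := AddCommGroup.zmodModule nsmul_rTors

instance rTorsSMulCommClass : SMulCommClass Γ (ZMod r) (rTors J r) where
  smul_comm σ a w := by
    rw [← ZMod.intCast_zmod_cast a, Int.cast_smul_eq_zsmul, Int.cast_smul_eq_zsmul]
    exact smul_comm σ _ w

variable (Γ J r)

/-- `J[r]` as a representation of `Γ` over `ZMod r`. -/
def torsRep : Rep (ZMod r) Γ := Rep.ofDistribMulAction (ZMod r) Γ (rTors J r)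

lemma torsRep_smul (σ : Γ) (w : rTors J r) : (torsRep Γ J r).ρ σ w = σ • w := rfl

end tors

section kummer

variable {Γ : Type} [Group Γ] {J : Type} [AddCommGroup J] [DistribMulAction Γ J] {r : ℕ}

/-- `y` is an `r`-division point of a `Γ`-fixed point. -/
def IsDivPt (Γ : Type) [Group Γ] {J : Type} [AddCommGroup J] [DistribMulAction Γ J] (r : ℕ)
    (y : J) : Prop :=
  ∀ σ : Γ, σ • (r • y) = r • y

lemma IsDivPt.sub_mem {y : J} (hy : IsDivPt Γ r y) (σ : Γ) : σ • y - y ∈ rTors J r := by
  rw [mem_rTors, smul_sub, ← smul_comm σ r y, hy σ, sub_self]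

lemma isDivPt_zero : IsDivPt Γ r (0 : J) := fun σ => by rw [smul_zero, smul_zero]

lemma IsDivPt.add {y y' : J} (hy : IsDivPt Γ r y) (hy' : IsDivPt Γ r y') :
    IsDivPt Γ r (y + y') := fun σ => by
  rw [smul_add, smul_add, hy σ, hy' σ]

lemma IsDivPt.neg {y : J} (hy : IsDivPt Γ r y) : IsDivPt Γ r (-y) := fun σ => by
  rw [smul_neg, smul_neg, hy σ]

lemma IsDivPt.sub {y y' : J} (hy : IsDivPt Γ r y) (hy' : IsDivPt Γ r y') :
    IsDivPt Γ r (y - y') := by
  rw [sub_eq_add_neg]; exact hy.add hy'.neg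

lemma isDivPt_of_mem_rTors {w : J} (hw : w ∈ rTors J r) : IsDivPt Γ r w := fun σ => by
  rw [mem_rTors.mp hw, smul_zero]

lemma isDivPt_of_fixed {y : J} (hy : ∀ σ : Γ, σ • y = y) : IsDivPt Γ r y := fun σ => by
  rw [smul_comm σ r y, hy σ]

/-- The Kummer cocycle `σ ↦ σ y - y` as a function `Γ → J[r]`. -/
def kummerFun {y : J} (hy : IsDivPt Γ r y) (σ : Γ) : rTors J r := ⟨σ • y - y, hy.sub_mem σ⟩

@[simp] lemma coe_kummerFun {y : J} (hy : IsDivPt Γ r y) (σ : Γ) :
    (kummerFun hy σ : J) = σ • y - y := rfl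

lemma isCocycle₁_kummerFun {y : J} (hy : IsDivPt Γ r y) : IsCocycle₁ (kummerFun hy) := by
  intro σ τ
  apply Subtype.ext
  rw [AddSubgroup.coe_add, coe_smul_rTors, coe_kummerFun, coe_kummerFun, coe_kummerFun, mul_smul,
    smul_sub]
  abel

/-- The Kummer cocycle of a division point. -/
def kummerCocycle {y : J} (hy : IsDivPt Γ r y) : cocycles₁ (torsRep Γ J r) :=
  cocyclesOfIsCocycle₁ (isCocycle₁_kummerFun hy)

lemma coe_kummerCocycle {y : J} (hy : IsDivPt Γ r y) :
    (⇑(kummerCocycle hy) : Γ → rTors J r) = kummerFun hy := rfl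

/-- The Kummer class of a division point. -/
def kummerClass {y : J} (hy : IsDivPt Γ r y) : H1 (torsRep Γ J r) :=
  H1π (torsRep Γ J r) (kummerCocycle hy)

/-- A class `H1π x` vanishes iff `x` is a coboundary `g ↦ g a - a`. -/
lemma H1π_eq_zero_iff_exists {k G : Type} [CommRing k] [Group G] {A : Rep k G}
    (x : cocycles₁ A) : H1π A x = 0 ↔ ∃ a : A, ∀ g : G, A.ρ g a - a = x g := by
  rw [H1π_eq_zero_iff]
  constructor
  · rintro ⟨a, ha⟩
    exact ⟨a, fun g => congrFun ha g⟩
  · rintro ⟨a, ha⟩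
    exact ⟨a, funext ha⟩

/-- **Kernel of the Kummer map**: the class of `y` vanishes iff `r • y = r • a` for a
`Γ`-fixed point `a`. -/
theorem kummerClass_eq_zero_iff {y : J} (hy : IsDivPt Γ r y) :
    kummerClass hy = 0 ↔ ∃ a : J, (∀ σ : Γ, σ • a = a) ∧ r • a = r • y := by
  rw [kummerClass, H1π_eq_zero_iff_exists]
  constructor
  · rintro ⟨w, hw⟩
    change ∀ σ : Γ, σ • (show rTors J r from w) - (show rTors J r from w) = kummerFun hy σ at hw
    revert hw
    generalize (show rTors J r from w) = w'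
    obtain ⟨w₀, hw₀⟩ := w'
    intro hw
    have hw' : ∀ σ : Γ, σ • w₀ - w₀ = σ • y - y := fun σ => congrArg Subtype.val (hw σ)
    refine ⟨y - w₀, fun σ => ?_, ?_⟩
    · have := hw' σ
      rw [smul_sub]
      rw [sub_eq_sub_iff_add_eq_add] at this
      rw [sub_eq_sub_iff_add_eq_add, ← this, add_comm]
    · rw [smul_sub, mem_rTors.mp hw₀, sub_zero]
  · rintro ⟨a, ha, hra⟩
    have hw : y - a ∈ rTors J r := by rw [mem_rTors, smul_sub, hra, sub_self]
    refine ⟨(⟨y - a, hw⟩ : rTors J r), fun σ => Subtype.ext ?_⟩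
    show σ • (y - a) - (y - a) = σ • y - y
    rw [smul_sub, ha σ]
    abel

lemma kummerCocycle_add {y y' : J} (hy : IsDivPt Γ r y) (hy' : IsDivPt Γ r y') :
    kummerCocycle (hy.add hy') = kummerCocycle hy + kummerCocycle hy' := by
  apply cocycles₁_ext
  intro σ
  apply Subtype.ext
  show σ • (y + y') - (y + y') = (σ • y - y) + (σ • y' - y')
  rw [smul_add]
  abel

/-- The Kummer class is additive. -/
theorem kummerClass_add {y y' : J} (hy : IsDivPt Γ r y) (hy' : IsDivPt Γ r y') :
    kummerClass (hy.add hy') = kummerClass hy + kummerClass hy' := by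
  rw [kummerClass, kummerCocycle_add, map_add]
  rfl

lemma kummerClass_of_mem_rTors {w : J} (hw : w ∈ rTors J r) :
    kummerClass (isDivPt_of_mem_rTors (Γ := Γ) hw) = 0 :=
  (kummerClass_eq_zero_iff _).mpr ⟨0, fun σ => smul_zero σ, by rw [smul_zero, mem_rTors.mp hw]⟩

lemma kummerClass_congr {y y' : J} (hy : IsDivPt Γ r y) (hy' : IsDivPt Γ r y') (h : y = y') :
    kummerClass hy = kummerClass hy' := by
  subst h; rfl

/-- The Kummer class of `y` depends only on `r • y`. -/
theorem kummerClass_eq_of_nsmul_eq {y y' : J} (hy : IsDivPt Γ r y) (hy' : IsDivPt Γ r y')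
    (h : r • y = r • y') : kummerClass hy = kummerClass hy' := by
  have hw : y - y' ∈ rTors J r := by rw [mem_rTors, smul_sub, h, sub_self]
  have h1 := kummerClass_add (isDivPt_of_mem_rTors (Γ := Γ) hw) hy'
  rw [kummerClass_of_mem_rTors hw, zero_add] at h1
  rw [← h1]
  exact kummerClass_congr _ _ (by abel)

section hom

variable (hdiv : ∀ z : J, (∀ σ : Γ, σ • z = z) → ∃ y : J, r • y = z)

/-- a chosen `r`-division point of a fixed point -/
def divPt (z : FixedPoints.addSubgroup Γ J) : J := (hdiv z z.2).choose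

lemma nsmul_divPt (z : FixedPoints.addSubgroup Γ J) : r • divPt hdiv z = z :=
  (hdiv z z.2).choose_spec

lemma isDivPt_divPt (z : FixedPoints.addSubgroup Γ J) : IsDivPt Γ r (divPt hdiv z) := fun σ => by
  rw [nsmul_divPt]; exact z.2 σ

/-- `κ(z)` is the Kummer class of ANY division point of `z`. -/
lemma kummerClass_divPt {z : FixedPoints.addSubgroup Γ J} {y : J} (hy : r • y = z) :
    kummerClass (isDivPt_divPt hdiv z) =
      kummerClass (Γ := Γ) (r := r) (y := y) (fun σ => by rw [hy]; exact z.2 σ) :=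
  kummerClass_eq_of_nsmul_eq _ _ (by rw [nsmul_divPt, hy])

/-- **The Kummer map** `J^Γ → H¹(Γ, J[r])`. -/
def kummer : FixedPoints.addSubgroup Γ J →+ H1 (torsRep Γ J r) where
  toFun z := kummerClass (isDivPt_divPt hdiv z)
  map_zero' := by
    rw [kummerClass_divPt hdiv (z := 0) (y := 0) (by rw [smul_zero]; rfl)]
    exact kummerClass_of_mem_rTors (Γ := Γ) (r := r) (w := 0) (rTors J r).zero_mem
  map_add' z z' := by
    rw [← kummerClass_add]
    exact kummerClass_divPt hdiv (by
      rw [smul_add, nsmul_divPt, nsmul_divPt]; rfl)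

lemma kummer_apply {z : FixedPoints.addSubgroup Γ J} {y : J} (hy : r • y = z) :
    kummer hdiv z = kummerClass (Γ := Γ) (r := r) (y := y) (fun σ => by rw [hy]; exact z.2 σ) :=
  kummerClass_divPt hdiv hy

/-- **The kernel of the Kummer map is `r · J^Γ`.** -/
theorem kummer_eq_zero_iff (z : FixedPoints.addSubgroup Γ J) :
    kummer hdiv z = 0 ↔ ∃ a : FixedPoints.addSubgroup Γ J, r • a = z := by
  show kummerClass (isDivPt_divPt hdiv z) = 0 ↔ _
  rw [kummerClass_eq_zero_iff]
  constructor
  · rintro ⟨a, ha, hra⟩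
    exact ⟨⟨a, ha⟩, Subtype.ext (by rw [AddSubgroup.coe_nsmul, hra, nsmul_divPt])⟩
  · rintro ⟨a, rfl⟩
    exact ⟨a, a.2, by rw [nsmul_divPt, AddSubgroup.coe_nsmul]⟩

theorem kummer_ker :
    (kummer hdiv).ker = (nsmulAddMonoidHom r : FixedPoints.addSubgroup Γ J →+ _).range := by
  ext z
  rw [AddMonoidHom.mem_ker, kummer_eq_zero_iff, AddMonoidHom.mem_range]
  rfl

/-- **The Kummer injection** `J^Γ / r J^Γ ↪ H¹(Γ, J[r])`. -/
def kummerQuot :
    (FixedPoints.addSubgroup Γ J ⧸ (nsmulAddMonoidHom r : FixedPoints.addSubgroup Γ J →+ _).range)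
      →+ H1 (torsRep Γ J r) :=
  QuotientAddGroup.lift _ (kummer hdiv) (fun z hz => by
    rw [← kummer_ker hdiv] at hz; exact hz)

@[simp] lemma kummerQuot_mk (z : FixedPoints.addSubgroup Γ J) :
    kummerQuot hdiv (QuotientAddGroup.mk z) = kummer hdiv z := rfl

theorem kummerQuot_injective : Function.Injective (kummerQuot hdiv) := by
  rw [injective_iff_map_eq_zero]
  intro q hq
  obtain ⟨z, rfl⟩ := QuotientAddGroup.mk_surjective q
  rw [kummerQuot_mk] at hq
  rw [QuotientAddGroup.eq_zero_iff, ← kummer_ker hdiv]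
  exact hq

end hom

section restriction

/-- an element of the restricted representation, seen in `J` -/
def resVal {H : Type} [Group H] (loc : H →* Γ) (w : Rep.res loc (torsRep Γ J r)) : J :=
  (rTors J r).subtype w

lemma resVal_mem {H : Type} [Group H] (loc : H →* Γ) (w : Rep.res loc (torsRep Γ J r)) :
    resVal loc w ∈ rTors J r := Subtype.property (p := fun x => x ∈ rTors J r) w

lemma resVal_injective {H : Type} [Group H] (loc : H →* Γ) :
    Function.Injective (resVal (J := J) (r := r) loc) :=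
  fun _ _ h => Subtype.ext (p := fun x => x ∈ rTors J r) h

lemma resVal_sub {H : Type} [Group H] (loc : H →* Γ) (w w' : Rep.res loc (torsRep Γ J r)) :
    resVal loc (w - w') = resVal loc w - resVal loc w' := rfl

lemma resVal_ρ {H : Type} [Group H] (loc : H →* Γ) (h : H) (w : Rep.res loc (torsRep Γ J r)) :
    resVal loc ((Rep.res loc (torsRep Γ J r)).ρ h w) = loc h • resVal loc w := rfl

lemma resVal_mapCocycles {H : Type} [Group H] (loc : H →* Γ) {y : J}
    (hy : IsDivPt Γ r y) (h : H) :
    resVal loc ((mapCocycles₁ loc (𝟙 (Rep.res loc (torsRep Γ J r))) (kummerCocycle hy)) h)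
      = loc h • y - y := rfl

theorem res_kummerClass_eq_zero_iff {H : Type} [Group H] (loc : H →* Γ) {y : J}
    (hy : IsDivPt Γ r y) :
    (map loc (𝟙 (Rep.res loc (torsRep Γ J r))) 1).hom (kummerClass hy) = 0 ↔
      ∃ a : J, (∀ h : H, loc h • a = a) ∧ r • a = r • y := by
  rw [kummerClass]
  have := H1π_comp_map_apply loc (𝟙 (Rep.res loc (torsRep Γ J r))) (kummerCocycle hy)
  erw [this]
  rw [H1π_eq_zero_iff_exists]
  constructor
  · rintro ⟨w, hw⟩
    have hw' : ∀ h : H, loc h • resVal loc w - resVal loc w = loc h • y - y := fun h => by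
      rw [← resVal_ρ, ← resVal_sub, hw h, resVal_mapCocycles]
    refine ⟨y - resVal loc w, fun h => ?_, ?_⟩
    · have := hw' h
      rw [smul_sub]
      rw [sub_eq_sub_iff_add_eq_add] at this
      rw [sub_eq_sub_iff_add_eq_add, ← this, add_comm]
    · rw [smul_sub, mem_rTors.mp (resVal_mem loc w), sub_zero]
  · rintro ⟨a, ha, hra⟩
    have hw : y - a ∈ rTors J r := by rw [mem_rTors, smul_sub, hra, sub_self]
    refine ⟨(⟨y - a, hw⟩ : rTors J r), fun h => resVal_injective loc ?_⟩
    show loc h • (y - a) - (y - a) = loc h • y - y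
    rw [smul_sub, ha h]
    abel

end restriction

section equivariance

variable (t : J →+ J) (ht : ∀ (σ : Γ) (x : J), t (σ • x) = σ • t x)

lemma map_mem_rTors {w : J} (hw : w ∈ rTors J r) : t w ∈ rTors J r := by
  rw [mem_rTors] at hw ⊢
  rw [← map_nsmul, hw, map_zero]

/-- the restriction of `t` to `J[r]` -/
def torsAddHom : rTors J r →+ rTors J r where
  toFun w := ⟨t (w : J), map_mem_rTors t w.2⟩
  map_zero' := Subtype.ext (map_zero t)
  map_add' a b := Subtype.ext (map_add t (a : J) (b : J))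

@[simp] lemma coe_torsAddHom (w : rTors J r) :
    ((torsAddHom (r := r) t w : rTors J r) : J) = t (w : J) := rfl

include ht in
lemma IsDivPt.map {y : J} (hy : IsDivPt Γ r y) : IsDivPt Γ r (t y) := fun σ => by
  rw [← map_nsmul, ← ht, hy σ]

/-- An additive endomorphism of `J` commuting with `Γ` induces an endomorphism of the
representation `J[r]`. -/
def torsMap : torsRep Γ J r ⟶ torsRep Γ J r :=
  Rep.ofHom (LinearMap.intertwiningMap_of_isIntertwiningMap
    (ρ := Representation.ofDistribMulAction (ZMod r) Γ (rTors J r))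
    (σ := Representation.ofDistribMulAction (ZMod r) Γ (rTors J r))
    ((torsAddHom (r := r) t).toZModLinearMap r)
    (fun σ w => Subtype.ext (ht σ (w : J))))

/-- **Equivariance of the Kummer class**: `H¹(t)(κ(y)) = κ(t y)`. -/
theorem map_kummerClass {y : J} (hy : IsDivPt Γ r y) :
    (map (MonoidHom.id Γ) (torsMap t ht) 1).hom (kummerClass hy) =
      kummerClass (hy.map t ht) := by
  rw [kummerClass, kummerClass]
  have := H1π_comp_map_apply (MonoidHom.id Γ) (torsMap (r := r) t ht) (kummerCocycle hy)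
  erw [this]
  congr 1
  apply cocycles₁_ext
  intro σ
  apply Subtype.ext
  show t (σ • y - y) = σ • t y - t y
  rw [map_sub, ht]

end equivariance

section homEquivariance

variable (hdiv : ∀ z : J, (∀ σ : Γ, σ • z = z) → ∃ y : J, r • y = z)
variable (t : J →+ J) (ht : ∀ (σ : Γ) (x : J), t (σ • x) = σ • t x)

/-- **Equivariance of the Kummer map.** -/
theorem map_kummer (z : FixedPoints.addSubgroup Γ J) :
    (map (MonoidHom.id Γ) (torsMap t ht) 1).hom (kummer hdiv z) =
      kummer hdiv ⟨t z, fun σ => by rw [← ht, z.2 σ]⟩ := by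
  show (map (MonoidHom.id Γ) (torsMap t ht) 1).hom (kummerClass (isDivPt_divPt hdiv z)) = _
  rw [map_kummerClass]
  symm
  exact kummer_apply hdiv (by rw [← map_nsmul, nsmul_divPt])

end homEquivariance

end kummer

end Fermat.Agent.S15.H842
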