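import Fermat.Agent.S15.H842.Kummer
import Fermat.Prelude.Def_GroupCohomology_ContinuousUnramified

/-!
# S15, piece DESC-KUM (helper842), part 2: Kummer classes for `G_ℚ` are continuous

For a `G_ℚ`-module `J` (`G_ℚ = Gal(ℚ̄/ℚ)`) and a division point `y` (`r • y` rational) which is
fixed by `Gal(ℚ̄/F)` for a number field `F`:

* `isLevelConstant₁_kummerCocycle` : the Kummer cocycle is level-constant (Prelude's
  `groupCohomology.IsLevelConstant₁`), hence
* `kummerClass_mem_continuousH1` : the Kummer class lies in the Prelude's `continuousH1`;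
* `isLevelConstantS₁_kummerCocycle` : if moreover `F` is unramified outside `S`, the cocycle is
  level-constant at a level unramified outside `S` (Prelude's `IsLevelConstantS₁`);
* `res_inertia_kummerClass_eq_zero` : if `F` is unramified at the place `A`, the restriction of
  the Kummer class to the inertia group of `A` vanishes.
-/

set_option autoImplicit false

noncomputable section

namespace Fermat.Agent.S15.H842

open groupCohomology CategoryTheory

/-- the absolute Galois group of `ℚ` -/
abbrev GQ : Type := AlgebraicClosure ℚ ≃ₐ[ℚ] AlgebraicClosure ℚ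

variable {J : Type} [AddCommGroup J] [DistribMulAction GQ J] {r : ℕ}

lemma kummerCocycle_mul_of_fixed {y : J} (hy : IsDivPt GQ r y) (g s : GQ) (hs : s • y = y) :
    kummerCocycle hy (g * s) = kummerCocycle hy g := by
  apply Subtype.ext (p := fun x => x ∈ rTors J r)
  show (g * s) • y - y = g • y - y
  rw [mul_smul, hs]

theorem isLevelConstant₁_kummerCocycle {y : J} (hy : IsDivPt GQ r y)
    (F : IntermediateField ℚ (AlgebraicClosure ℚ)) (hF : FiniteDimensional ℚ F)
    (hFy : ∀ s ∈ F.fixingSubgroup, s • y = y) :
    IsLevelConstant₁ (MonoidHom.id GQ) (kummerCocycle hy : GQ → torsRep GQ J r) :=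
  ⟨F, hF, fun g s hs => kummerCocycle_mul_of_fixed hy g s (hFy s hs)⟩

/-- **The Kummer class is continuous.** -/
theorem kummerClass_mem_continuousH1 {y : J} (hy : IsDivPt GQ r y)
    (F : IntermediateField ℚ (AlgebraicClosure ℚ)) (hF : FiniteDimensional ℚ F)
    (hFy : ∀ s ∈ F.fixingSubgroup, s • y = y) :
    kummerClass hy ∈ continuousH1 (MonoidHom.id GQ) (torsRep GQ J r) :=
  H1π_mem_continuousH1 _ _ (isLevelConstant₁_kummerCocycle hy F hF hFy)

theorem isLevelConstantS₁_kummerCocycle (S : Finset Nat.Primes) {y : J} (hy : IsDivPt GQ r y)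
    (F : IntermediateField ℚ (AlgebraicClosure ℚ)) (hF : F.IsUnramifiedOutside S)
    (hFy : ∀ s ∈ F.fixingSubgroup, s • y = y) :
    IsLevelConstantS₁ S (kummerCocycle hy : GQ → torsRep GQ J r) :=
  ⟨F, hF, fun g s hs => kummerCocycle_mul_of_fixed hy g s (hFy s hs)⟩

/-- If some division point of `r • y` is fixed by the subgroup `H` (e.g. an inertia group),
the restriction of the Kummer class to `H` vanishes. -/
theorem res_subgroup_kummerClass_eq_zero {y : J} (hy : IsDivPt GQ r y) (H : Subgroup GQ)
    (hH : ∀ s ∈ H, s • y = y) :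
    (map H.subtype (𝟙 (Rep.res H.subtype (torsRep GQ J r))) 1).hom (kummerClass hy) = 0 :=
  (res_kummerClass_eq_zero_iff H.subtype hy).mpr ⟨y, fun h => hH h h.2, rfl⟩

end Fermat.Agent.S15.H842
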