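import Fermat.Agent.S15.H242.Loc

/-!
# S15, piece COMPAT-PSI (helper842): the valuation of `∏ ψ₂(kQ)` sees the component of `Q`

For a point `P = (x, y)` of a Weierstrass curve put `ψ₂(P) = 2 y + a₁ x + a₃` (the second
division polynomial evaluated at `P`).  Let `A` be a valuation ring of `K`, `W` a Weierstrass
curve over `K` with coefficients in `A` (any reduction type), and `Q` a point of odd prime order
`p`, `p` a unit of `A`.  Then

* `val_psiProd_eq_one` : if `Q ∈ E⁰` then `∏_{0<k<p} ψ₂(kQ)` is a unit of `A`;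
* `val_psiProd_lt_one` : if `Q ∉ E⁰` then `∏_{0<k<p} ψ₂(kQ)` lies in the maximal ideal of `A`.

In the situation of S15 (`frey`-independent; `W` over `ℤ`, place `A` of `ℚ̄` over `ℓ ≠ p`):
`val_modUnitValue_mul` / `val_modUnitValue_lt` give the corresponding statements for

  `U(W, Q) = p ^ 12 * (∏_{0<k<p} ψ₂(kQ)) ^ 4 / Δ ^ (p - 1)`,

which is the value at the moduli point `(E, ⟨Q⟩)` of the modular unit `Δ(τ)/Δ(pτ)`
(route memo `origin/helper902:coord/S15-PB-helper902.md`, formula (I1)).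
-/

set_option autoImplicit false
set_option linter.unusedSectionVars false

namespace Fermat.Agent.S15.H842

open WeierstrassCurve WeierstrassCurve.Affine
open Fermat.Agent.Lib.Red.H290
open Fermat.Agent.S05.SameRed (IntegralCoeffs InKer)
open Fermat.Agent.S15.H242

section general

variable {K : Type*} [Field K] [DecidableEq K] {κ : Type*} [Field κ] [DecidableEq κ]
variable {A : ValuationSubring K} {φ : A →+* κ} {W : Affine K} {Wκ : Affine κ}

/-- `ψ₂(P) = 2 y + a₁ x + a₃` (and `0` at the origin). -/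
def psi2 (W : Affine K) : W.Point → K
  | .zero => 0
  | .some x y _ => 2 * y + W.a₁ * x + W.a₃

@[simp] lemma psi2_some {x y : K} (h : W.Nonsingular x y) :
    psi2 W (Point.some x y h) = 2 * y + W.a₁ * x + W.a₃ := rfl

/-- The product `∏_{0 < k < p} ψ₂(k Q)`. -/
noncomputable def psiProd (W : Affine K) (Q : W.Point) (p : ℕ) : K :=
  ∏ k ∈ Finset.Ico 1 p, psi2 W (k • Q)

lemma psi2_eq_sub_negY {x y : K} : 2 * y + W.a₁ * x + W.a₃ = y - W.negY x y := by
  simp only [Affine.negY]; ring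

lemma psi2_mem (h : IsRedOf A φ W Wκ) {x y : K} (hxy : W.Nonsingular x y) (hx : x ∈ A) :
    psi2 W (Point.some x y hxy) ∈ A := by
  have hy : y ∈ A := y_mem_of_x_mem h hxy.1 hx
  rw [psi2_some, psi2_eq_sub_negY]
  exact A.sub_mem hy (negY_mem h hx hy)

lemma rd_psi2 (h : IsRedOf A φ W Wκ) {x y : K} (hxy : W.Nonsingular x y) (hx : x ∈ A) :
    rd A φ (psi2 W (Point.some x y hxy)) = rd A φ y - Wκ.negY (rd A φ x) (rd A φ y) := by
  have hy : y ∈ A := y_mem_of_x_mem h hxy.1 hx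
  rw [psi2_some, psi2_eq_sub_negY, rd_sub hy (negY_mem h hx hy), rd_negY h hx hy]

/-- A point which is not in the kernel of reduction has `ψ₂ ∈ A`. -/
lemma val_psi2_le_one (h : IsRedOf A φ W Wκ) {P : W.Point} (hP : ¬ InKer W A.valuation P) :
    A.valuation (psi2 W P) ≤ 1 := by
  rcases P with _ | ⟨x, y, hxy⟩
  · exact absurd trivial hP
  · have hx : x ∈ A := by
      by_contra hx; exact hP (not_mem_iff_one_lt.mp hx)
    exact val_le_of_mem (psi2_mem h hxy hx)

/-- A point outside `E⁰` (i.e. reducing to the singular point) has `ψ₂` in the maximal ideal. -/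
lemma val_psi2_lt_one_of_not_inE0 (h : IsRedOf A φ W Wκ) (hφ : KerMax A φ) {P : W.Point}
    (hP : ¬ InE0 A φ Wκ P) : A.valuation (psi2 W P) < 1 := by
  rcases P with _ | ⟨x, y, hxy⟩
  · exact absurd trivial hP
  · rw [inE0_some_iff] at hP
    obtain ⟨hx, hns⟩ := Classical.not_imp.mp hP
    have hy : y ∈ A := y_mem_of_x_mem h hxy.1 hx
    have heq : Wκ.Equation (rd A φ x) (rd A φ y) := rd_equation h hx hy hxy.1
    rw [← rd_eq_zero_iff hφ (psi2_mem h hxy hx), rd_psi2 h hxy hx]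
    rw [Affine.nonsingular_iff] at hns
    have hy0 : rd A φ y = -rd A φ y - Wκ.a₁ * rd A φ x - Wκ.a₃ := by
      by_contra hne
      exact hns ⟨heq, Or.inr hne⟩
    simp only [Affine.negY]
    linear_combination hy0

/-- An integral point with nonsingular reduction `P̃`, `2 P̃ ≠ 0`, has `ψ₂(P)` a unit. -/
lemma val_psi2_eq_one (h : IsRedOf A φ W Wκ) (hφ : KerMax A φ) {P : W.Point}
    (hP : InE0 A φ Wκ P) (h2 : red0 A φ Wκ P ≠ -red0 A φ Wκ P) :
    A.valuation (psi2 W P) = 1 := by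
  rcases P with _ | ⟨x, y, hxy⟩
  · exact absurd (by rw [show (Point.zero : W.Point) = 0 from rfl, red0_zero, neg_zero]) h2
  · have hx : x ∈ A := by
      by_contra hx
      rw [red0_some_of_not_mem hxy hx, neg_zero] at h2
      exact h2 rfl
    have hns := hP hx
    rw [← rd_ne_zero_iff hφ (psi2_mem h hxy hx), rd_psi2 h hxy hx]
    intro h0
    apply h2
    rw [red0_some_of_mem hxy hx hns, Point.neg_some]
    congr 1
    exact sub_eq_zero.mp h0

/-- multiples `k Q`, `p ∤ k`, of a point of prime order `p` have order `p`. -/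
lemma addOrderOf_nsmul_of_prime {G : Type*} [AddGroup G] {p : ℕ} (hp : p.Prime) {Q : G}
    (hord : addOrderOf Q = p) {k : ℕ} (hk : ¬ p ∣ k) : addOrderOf (k • Q) = p := by
  have hcop : Nat.Coprime (addOrderOf Q) k := by
    rw [hord]; exact (Nat.Prime.coprime_iff_not_dvd hp).mpr hk
  rw [Nat.Coprime.addOrderOf_nsmul hcop, hord]

lemma not_dvd_of_mem_Ico {p k : ℕ} (hk : k ∈ Finset.Ico 1 p) : ¬ p ∣ k := by
  rw [Finset.mem_Ico] at hk
  exact Nat.not_dvd_of_pos_of_lt (by omega) hk.2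

/-- No point of prime order `p` (a unit of `A`) lies in the kernel of reduction. -/
lemma not_inKer_of_addOrderOf (h : IsRedOf A φ W Wκ) {p : ℕ} (hp : p.Prime)
    (hv : A.valuation (p : K) = 1) {P : W.Point} (hord : addOrderOf P = p) :
    ¬ InKer W A.valuation P := by
  intro hk
  have hpP : p • P = 0 := by rw [← hord]; exact addOrderOf_nsmul_eq_zero P
  have h0 := Fermat.Agent.S05.C1b.eq_zero_of_inKer_of_nsmul_eq_zero h.integralCoeffs p hv P hk hpP
  rw [h0, addOrderOf_zero] at hord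
  exact hp.one_lt.ne hord

/-- **COMPAT-PSI (a).**  If `Q ∈ E⁰` has odd prime order `p`, `p` a unit of `A`, then every
`ψ₂(k Q)`, `p ∤ k`, is a unit of `A`. -/
theorem val_psi2_nsmul_eq_one (h : IsRedOf A φ W Wκ) (hφ : KerMax A φ) {p : ℕ} (hp : p.Prime)
    (hp2 : p ≠ 2) (hv : A.valuation (p : K) = 1) {Q : W.Point} (hQ : InE0 A φ Wκ Q)
    (hord : addOrderOf Q = p) {k : ℕ} (hk : ¬ p ∣ k) :
    A.valuation (psi2 W (k • Q)) = 1 := by
  have hkQ : InE0 A φ Wκ (k • Q) := inE0_nsmul h hφ hQ k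
  have hordk : addOrderOf (k • Q) = p := addOrderOf_nsmul_of_prime hp hord hk
  have hred : addOrderOf (red0 A φ Wκ (k • Q)) = p := addOrderOf_red0 h hφ hp hv hkQ hordk
  refine val_psi2_eq_one h hφ hkQ ?_
  intro heq
  have h2 : 2 • red0 A φ Wκ (k • Q) = 0 := by
    rw [two_nsmul]
    nth_rewrite 1 [heq]
    exact neg_add_cancel _
  have hdvd := addOrderOf_dvd_of_nsmul_eq_zero h2
  rw [hred] at hdvd
  exact hp2 ((Nat.prime_dvd_prime_iff_eq hp Nat.prime_two).mp hdvd)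

/-- **COMPAT-PSI (a), product form.** -/
theorem val_psiProd_eq_one (h : IsRedOf A φ W Wκ) (hφ : KerMax A φ) {p : ℕ} (hp : p.Prime)
    (hp2 : p ≠ 2) (hv : A.valuation (p : K) = 1) {Q : W.Point} (hQ : InE0 A φ Wκ Q)
    (hord : addOrderOf Q = p) :
    A.valuation (psiProd W Q p) = 1 := by
  rw [psiProd, map_prod]
  exact Finset.prod_eq_one fun k hk =>
    val_psi2_nsmul_eq_one h hφ hp hp2 hv hQ hord (not_dvd_of_mem_Ico hk)

/-- all `ψ₂(k Q)`, `p ∤ k`, are integral -/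
theorem val_psi2_nsmul_le_one (h : IsRedOf A φ W Wκ) {p : ℕ} (hp : p.Prime)
    (hv : A.valuation (p : K) = 1) {Q : W.Point}
    (hord : addOrderOf Q = p) {k : ℕ} (hk : ¬ p ∣ k) :
    A.valuation (psi2 W (k • Q)) ≤ 1 :=
  val_psi2_le_one h
    (not_inKer_of_addOrderOf h hp hv (addOrderOf_nsmul_of_prime hp hord hk))

/-- **COMPAT-PSI (b), product form.**  If `Q ∉ E⁰` has prime order `p`, `p` a unit of `A`, then
`∏ ψ₂(k Q)` lies in the maximal ideal. -/
theorem val_psiProd_lt_one (h : IsRedOf A φ W Wκ) (hφ : KerMax A φ) {p : ℕ} (hp : p.Prime)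
    (hv : A.valuation (p : K) = 1) {Q : W.Point} (hQ : ¬ InE0 A φ Wκ Q)
    (hord : addOrderOf Q = p) :
    A.valuation (psiProd W Q p) < 1 := by
  have h1 : 1 ∈ Finset.Ico 1 p := Finset.mem_Ico.mpr ⟨le_rfl, hp.one_lt⟩
  rw [psiProd, map_prod, ← Finset.mul_prod_erase _ _ h1, one_smul]
  have ha : A.valuation (psi2 W Q) < 1 := val_psi2_lt_one_of_not_inE0 h hφ hQ
  have hb : ∏ k ∈ (Finset.Ico 1 p).erase 1, A.valuation (psi2 W (k • Q)) ≤ 1 :=
    Finset.prod_le_one' fun k hk =>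
      val_psi2_nsmul_le_one h hp hv hord (not_dvd_of_mem_Ico (Finset.mem_of_mem_erase hk))
  calc A.valuation (psi2 W Q) * ∏ k ∈ (Finset.Ico 1 p).erase 1, A.valuation (psi2 W (k • Q))
      ≤ A.valuation (psi2 W Q) * 1 := mul_le_mul_right hb _
    _ < 1 := by rwa [mul_one]

end general

section prelude

variable (W : WeierstrassCurve ℤ) (A : ValuationSubring (AlgebraicClosure ℚ))

/-- `InE0` (for the residue map of `A`) implies the Prelude's `InZeroComponentAt`. -/
lemma inZeroComponentAt_of_inE0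
    {Q : ((W.map (Int.castRingHom ℚ))⁄(AlgebraicClosure ℚ)).Point}
    (hQ : InE0 A (IsLocalRing.residue A) (W⁄(IsLocalRing.ResidueField A)) Q) :
    W.InZeroComponentAt A Q := by
  classical
  rcases Q with _ | ⟨x, y, h⟩
  · exact Or.inl rfl
  · refine Or.inr ⟨x, y, h, rfl, ?_⟩
    by_cases hx : x ∈ A
    · have hy : y ∈ A := y_mem_of_x_mem (isRedOf_int A W (IsLocalRing.residue A)) h.1 hx
      refine Or.inr ⟨hx, hy, ?_⟩
      have := hQ hx
      rwa [rd_of_mem hx, rd_of_mem hy] at this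
    · exact Or.inl hx

/-- The Prelude's `InZeroComponentAt` is `InE0` for the residue map of `A`. -/
lemma inZeroComponentAt_iff_inE0
    {Q : ((W.map (Int.castRingHom ℚ))⁄(AlgebraicClosure ℚ)).Point} :
    W.InZeroComponentAt A Q ↔
      InE0 A (IsLocalRing.residue A) (W⁄(IsLocalRing.ResidueField A)) Q :=
  ⟨inE0_of_inZeroComponentAt W A, inZeroComponentAt_of_inE0 W A⟩

/-- `U(W, Q) = p ^ 12 * (∏_{0<k<p} ψ₂(kQ)) ^ 4 / Δ ^ (p - 1)`: the value of the modular unit
`Δ(τ)/Δ(pτ)` at the moduli point `(E, ⟨Q⟩)` of `X₀(p)`. -/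
noncomputable def modUnitValue (p : ℕ)
    (Q : ((W.map (Int.castRingHom ℚ))⁄(AlgebraicClosure ℚ)).Point) : AlgebraicClosure ℚ :=
  open Classical in
  (p : AlgebraicClosure ℚ) ^ 12 * (psiProd ((W.map (Int.castRingHom ℚ))⁄(AlgebraicClosure ℚ)) Q p) ^ 4
    / ((W.Δ : ℤ) : AlgebraicClosure ℚ) ^ (p - 1)

variable {W A}

/-- **COMPAT-PSI, S15 form (a).**  If `Q` (of odd prime order `p ≠ ℓ`) is in the zero component
at `A ∣ ℓ`, then `v_A(U(W,Q)) = -(p-1) v_A(Δ)`. -/
theorem val_modUnitValue_mul {p : ℕ} (hp : p.Prime) (hp2 : p ≠ 2) (hΔ : W.Δ ≠ 0)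
    {Q : ((W.map (Int.castRingHom ℚ))⁄(AlgebraicClosure ℚ)).Point} (hQord : addOrderOf Q = p)
    {ℓ : ℕ} (hℓ : ℓ.Prime) (hℓp : ℓ ≠ p) (hA : A.LiesOverPrime ℓ)
    (hQ0 : W.InZeroComponentAt A Q) :
    A.valuation (modUnitValue W p Q) * A.valuation ((W.Δ : ℤ) : AlgebraicClosure ℚ) ^ (p - 1)
      = 1 := by
  classical
  have hφ : KerMax A (IsLocalRing.residue A) := kerMax_residue A
  have hred := isRedOf_int A W (IsLocalRing.residue A)
  have hv : A.valuation ((p : ℕ) : AlgebraicClosure ℚ) = 1 := val_natCast_eq_one A hA hℓ hp hℓp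
  have hΔ0 : ((W.Δ : ℤ) : AlgebraicClosure ℚ) ≠ 0 := by exact_mod_cast hΔ
  have hvΔ : A.valuation (((W.Δ : ℤ) : AlgebraicClosure ℚ) ^ (p - 1)) ≠ 0 := by
    rw [Ne, Valuation.zero_iff]; exact pow_ne_zero _ hΔ0
  have key := val_psiProd_eq_one hred hφ hp hp2 hv (inE0_of_inZeroComponentAt W A hQ0) hQord
  rw [modUnitValue, map_div₀, ← map_pow, div_mul_cancel₀ _ hvΔ, map_mul, map_pow, map_pow, hv,
    key, one_pow, one_pow, one_mul]

/-- **COMPAT-PSI, S15 form (b).**  If `Q` (of prime order `p ≠ ℓ`) is NOT in the zero component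
at `A ∣ ℓ`, then `v_A(U(W,Q)) > -(p-1) v_A(Δ)`. -/
theorem val_modUnitValue_lt {p : ℕ} (hp : p.Prime) (hΔ : W.Δ ≠ 0)
    {Q : ((W.map (Int.castRingHom ℚ))⁄(AlgebraicClosure ℚ)).Point} (hQord : addOrderOf Q = p)
    {ℓ : ℕ} (hℓ : ℓ.Prime) (hℓp : ℓ ≠ p) (hA : A.LiesOverPrime ℓ)
    (hQ0 : ¬ W.InZeroComponentAt A Q) :
    A.valuation (modUnitValue W p Q) * A.valuation ((W.Δ : ℤ) : AlgebraicClosure ℚ) ^ (p - 1)
      < 1 := by
  classical
  have hφ : KerMax A (IsLocalRing.residue A) := kerMax_residue A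
  have hred := isRedOf_int A W (IsLocalRing.residue A)
  have hv : A.valuation ((p : ℕ) : AlgebraicClosure ℚ) = 1 := val_natCast_eq_one A hA hℓ hp hℓp
  have hΔ0 : ((W.Δ : ℤ) : AlgebraicClosure ℚ) ≠ 0 := by exact_mod_cast hΔ
  have hvΔ : A.valuation (((W.Δ : ℤ) : AlgebraicClosure ℚ) ^ (p - 1)) ≠ 0 := by
    rw [Ne, Valuation.zero_iff]; exact pow_ne_zero _ hΔ0
  have key := val_psiProd_lt_one hred hφ hp hv
    (fun h => hQ0 (inZeroComponentAt_of_inE0 W A h)) hQord
  rw [modUnitValue, map_div₀, ← map_pow, div_mul_cancel₀ _ hvΔ, map_mul, map_pow, map_pow, hv,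
    one_pow, one_mul]
  exact pow_lt_one₀ zero_le key (by norm_num)

end prelude

end Fermat.Agent.S15.H842
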