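import Fermat.Agent.S15.H975.DescSpec2
import Fermat.Agent.S15.H466.SelAsm

/-!
# S15 / DESC — leaf SEL-ASM of the official route      (helper842)

`selAsmStatement : Fermat.Agent.S15.H975.SelAsmStatement` (VERBATIM, unconditional), i.e.

  `FlagStatement → CountStatement → CntStatement → StepStatement → SelStatement`.

Pure adapter: `H466.selBound_of_cnt` (helper466; engine `H842.Engine.engine_bot` + jump count +
self-improving count of helper208) applied to `K = cocImage complexConjugation`,
`U₀ = cocImage τ₀`.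
-/

set_option autoImplicit false

namespace Fermat.Agent.S15.H842.SelAsmLeaf

open Fermat.Agent.S15.H975

/-- **SEL-ASM** (leaf of `Fermat/Agent/S15/H975/DescSpec2.lean`, verbatim). -/
theorem selAsmStatement : SelAsmStatement := by
  intro hFlag hCount hCnt hStep p _ hp S r hr hrp
  obtain ⟨D, F, hF⟩ := hFlag p hp S r hr hrp
  obtain ⟨A, hA, τ₀, hτ₀, hstep⟩ := hStep p hp S r hr hrp
  exact Fermat.Agent.S15.H466.selBound_of_cnt p (S : Set ℕ) r hr D F hF
    (cocImage p (S : Set ℕ) r complexConjugation) (cocImage p (S : Set ℕ) r τ₀)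
    (cocImage_le p (S : Set ℕ) r complexConjugation) (cocImage_le p (S : Set ℕ) r τ₀)
    (hCount p hp S r hr hrp)
    (fun i hi => hstep (F i) (F (i + 1))
      (Fermat.Agent.S15.H466.flag_le p hF (i + 1) hi) (hF.2.2 i hi))
    (hCnt p hp S r hr hrp A hA τ₀ hτ₀)

end Fermat.Agent.S15.H842.SelAsmLeaf
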